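import Mathlib
import Fermat.Agent.LT.T7.H57.PreBSpec
import Fermat.Agent.LT.T7.H557.DescTriv

/-!
# Row LT, tower T7, leaf T7.L2.1.H2a.B.0.L `PB57.SwapLocC57` (registry row 3077, helper475)

OFF-MAIN.  On `LT/T7/H57/PreBSpec.lean` (helper57@fe36e97fc, sha256 d5bf85f8..., byte-identical
copy) and its closure.  No hole, nothing assumed, new names only (all suffixed `475`).

    swapLocC475 (K K') : Fermat.Agent.LT.T7.PB57.SwapLocC57 K K'      (VERBATIM, UNCONDITIONAL)

The swapped components satisfy `H893.LocB893b`: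
* `LocHyp893` at the bad places `T₀ ∖ {u}`: `IsBadPart57.hyp` with the archimedean clauses of
  `ArchOk893` of the first pair; `swDn57 = fb` on `T₀.erase u`;
* the values of `swUp57`, `swDn57` at the places of the level (the place of `K` under a place of
  `K'` is unique: `H557.placeOver_unique_557`; `u ∈ T₀` by `IsExp797.mem_T₀`, `IsLevel797.u_level`);
* `SphOut893`: outside `T₀` the swaps do not change the components;
* `ArchOk893`: the finite clauses of `LocHyp305` are asked for the EMPTY set of places.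

The definitions are unfolded with `rfl` / `show` / `intro` only (no foreign equation lemma is
realised in this module).
-/

set_option autoImplicit false
set_option linter.unusedSectionVars false

open AutomorphicForm IsDedekindDomain NumberField MeasureTheory
open scoped ComplexConjugate

noncomputable section

namespace Fermat.Agent.LT.T7.H475

open Fermat.Agent.LT.H556 Fermat.Agent.LT.H556.A0 Fermat.Agent.LT.T7
open Fermat.Agent.LT.T7.H893 Fermat.Agent.LT.T7.H305 Fermat.Agent.LT.T7.Q797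
open Fermat.Agent.LT.T7.PB57

attribute [local instance] Fermat.Agent.LT.T5.instMeasurableSpaceG

variable {K K' : Type} [Field K] [NumberField K] [Field K'] [NumberField K'] [Algebra K K']

open Classical in
/-- The value of the swap upstairs (definitional). -/
theorem swUp_apply475 (B : L2Base K K') (T₀ : Finset (HeightOneSpectrum (𝓞 K)))
    (n₀ : HeightOneSpectrum (𝓞 K') → ℕ)
    (φ₀ : ∀ w : HeightOneSpectrum (𝓞 K'), GL (Fin 2) (w.adicCompletion K') → ℂ)
    (w : HeightOneSpectrum (𝓞 K')) :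
    swUp57 B T₀ n₀ φ₀ w
      = if PlaceOver K K' B.u w then iwFn893
        else if ∃ v ∈ T₀, PlaceOver K K' v w then unitFn893 (n₀ w) else φ₀ w :=
  rfl

open Classical in
/-- The value of the swap downstairs (definitional). -/
theorem swDn_apply475 (B : L2Base K K') (T₀ : Finset (HeightOneSpectrum (𝓞 K)))
    (fb : ∀ v : HeightOneSpectrum (𝓞 K), GL (Fin 2) (v.adicCompletion K) → ℂ)
    (f₀ : ∀ v : HeightOneSpectrum (𝓞 K), GL (Fin 2) (v.adicCompletion K) → ℂ)
    (v : HeightOneSpectrum (𝓞 K)) :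
    swDn57 B T₀ fb f₀ v = if v = B.u then iwFn893 else if v ∈ T₀ then fb v else f₀ v :=
  rfl

/-- Upstairs, over the place `u`: the Iwahori function. -/
theorem swUp_over_u475 (B : L2Base K K') (T₀ : Finset (HeightOneSpectrum (𝓞 K)))
    (n₀ : HeightOneSpectrum (𝓞 K') → ℕ)
    (φ₀ : ∀ w : HeightOneSpectrum (𝓞 K'), GL (Fin 2) (w.adicCompletion K') → ℂ)
    (w : HeightOneSpectrum (𝓞 K')) (hw : PlaceOver K K' B.u w) :
    swUp57 B T₀ n₀ φ₀ w = iwFn893 := by
  rw [swUp_apply475, if_pos hw]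

/-- Upstairs, over a place of the level different from `u`: the unit of the base level. -/
theorem swUp_over_bad475 (B : L2Base K K') (T₀ : Finset (HeightOneSpectrum (𝓞 K)))
    (n₀ : HeightOneSpectrum (𝓞 K') → ℕ)
    (φ₀ : ∀ w : HeightOneSpectrum (𝓞 K'), GL (Fin 2) (w.adicCompletion K') → ℂ)
    (v : HeightOneSpectrum (𝓞 K)) (hv : v ∈ T₀) (hne : v ≠ B.u)
    (w : HeightOneSpectrum (𝓞 K')) (hw : PlaceOver K K' v w) :
    swUp57 B T₀ n₀ φ₀ w = unitFn893 (n₀ w) := by
  have h1 : ¬ PlaceOver K K' B.u w := fun h => hne (H557.placeOver_unique_557 hw h)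
  rw [swUp_apply475, if_neg h1, if_pos ⟨v, hv, hw⟩]

/-- Upstairs, over a place outside the level: the given component. -/
theorem swUp_over_out475 (B : L2Base K K') (T₀ : Finset (HeightOneSpectrum (𝓞 K)))
    (hu : B.u ∈ T₀) (n₀ : HeightOneSpectrum (𝓞 K') → ℕ)
    (φ₀ : ∀ w : HeightOneSpectrum (𝓞 K'), GL (Fin 2) (w.adicCompletion K') → ℂ)
    (v : HeightOneSpectrum (𝓞 K)) (hv : v ∉ T₀)
    (w : HeightOneSpectrum (𝓞 K')) (hw : PlaceOver K K' v w) :
    swUp57 B T₀ n₀ φ₀ w = φ₀ w := by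
  have h1 : ¬ PlaceOver K K' B.u w := fun h =>
    hv ((H557.placeOver_unique_557 hw h).symm ▸ hu)
  have h2 : ¬ ∃ v' ∈ T₀, PlaceOver K K' v' w := by
    rintro ⟨v', hv', hw'⟩
    exact hv ((H557.placeOver_unique_557 hw hw').symm ▸ hv')
  rw [swUp_apply475, if_neg h1, if_neg h2]

/-- Downstairs, at `u`: the Iwahori function. -/
theorem swDn_u475 (B : L2Base K K') (T₀ : Finset (HeightOneSpectrum (𝓞 K)))
    (fb f₀ : ∀ v : HeightOneSpectrum (𝓞 K), GL (Fin 2) (v.adicCompletion K) → ℂ) :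
    swDn57 B T₀ fb f₀ B.u = iwFn893 := by
  rw [swDn_apply475, if_pos rfl]

open Classical in
/-- Downstairs, at a place of the level different from `u`: the partner. -/
theorem swDn_bad475 (B : L2Base K K') (T₀ : Finset (HeightOneSpectrum (𝓞 K)))
    (fb f₀ : ∀ v : HeightOneSpectrum (𝓞 K), GL (Fin 2) (v.adicCompletion K) → ℂ)
    (v : HeightOneSpectrum (𝓞 K)) (hv : v ∈ T₀.erase B.u) :
    swDn57 B T₀ fb f₀ v = fb v := by
  have hv' := Finset.mem_erase.1 hv
  rw [swDn_apply475, if_neg hv'.1, if_pos hv'.2]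

/-- Downstairs, outside the level: the given component. -/
theorem swDn_out475 (B : L2Base K K') (T₀ : Finset (HeightOneSpectrum (𝓞 K)))
    (hu : B.u ∈ T₀)
    (fb f₀ : ∀ v : HeightOneSpectrum (𝓞 K), GL (Fin 2) (v.adicCompletion K) → ℂ)
    (v : HeightOneSpectrum (𝓞 K)) (hv : v ∉ T₀) :
    swDn57 B T₀ fb f₀ v = f₀ v := by
  have h1 : v ≠ B.u := fun h => hv (h.symm ▸ hu)
  rw [swDn_apply475, if_neg h1, if_neg hv]

/-- `LocHyp893` depends on the components downstairs at the places of the set only. -/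
theorem locHyp893_congr_down475 (D : CompData K K') (μc : @Measure (GL (Fin 2) ℂ) (borel _))
    (T : Finset (HeightOneSpectrum (𝓞 K)))
    (n : HeightOneSpectrum (𝓞 K') → ℕ) (m : HeightOneSpectrum (𝓞 K) → ℕ)
    (φ₀ : ∀ w : HeightOneSpectrum (𝓞 K'), GL (Fin 2) (w.adicCompletion K') → ℂ)
    (Φ : InfinitePlace K' → GL (Fin 2) ℂ → ℂ)
    (f₀ f₀' : ∀ v : HeightOneSpectrum (𝓞 K), GL (Fin 2) (v.adicCompletion K) → ℂ)
    (F : InfinitePlace K → GL (Fin 2) ℂ → ℂ)
    (heq : ∀ v ∈ T, f₀' v = f₀ v)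
    (h : LocHyp893 D μc T n m φ₀ Φ f₀ F) : LocHyp893 D μc T n m φ₀ Φ f₀' F where
  inv_up := h.inv_up
  inv_down := fun v hv => by rw [heq v hv]; exact h.inv_down v hv
  arch_up := h.arch_up
  arch_down := h.arch_down
  inert := fun v hv => by rw [heq v hv]; exact h.inert v hv
  split := fun v hv => by rw [heq v hv]; exact h.split v hv
  arch := h.arch

/-- `LocHyp305` for the EMPTY set of finite places depends on the archimedean components
only. -/
theorem locHyp305_empty_congr475 (D : CompData K K') (μc : @Measure (GL (Fin 2) ℂ) (borel _))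
    (n : HeightOneSpectrum (𝓞 K') → ℕ) (m : HeightOneSpectrum (𝓞 K) → ℕ)
    (φ₀ φ₀' : ∀ w : HeightOneSpectrum (𝓞 K'), GL (Fin 2) (w.adicCompletion K') → ℂ)
    (Φ : InfinitePlace K' → GL (Fin 2) ℂ → ℂ)
    (f₀ f₀' : ∀ v : HeightOneSpectrum (𝓞 K), GL (Fin 2) (v.adicCompletion K) → ℂ)
    (F : InfinitePlace K → GL (Fin 2) ℂ → ℂ)
    (h : LocHyp305 D μc ∅ n m φ₀ Φ f₀ F) : LocHyp305 D μc ∅ n m φ₀' Φ f₀' F where
  inv_up := fun v hv => absurd hv (Finset.notMem_empty v)
  inv_down := fun v hv => absurd hv (Finset.notMem_empty v)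
  arch_up := h.arch_up
  arch_down := h.arch_down
  inert := fun v hv => absurd hv (Finset.notMem_empty v)
  split := fun v hv => absurd hv (Finset.notMem_empty v)
  arch := h.arch

variable (K K')

/-- **LEAF PB.0.L = SWAP-LOC** (registry row 3077): the swapped components satisfy
`H893.LocB893b`. -/
theorem swapLocC475 : SwapLocC57 K K' := by
  intro ℓ _hcyc _hℓ _htc Φe B _hB _hram g _hg 𝔫 hlev μc _hμc T₀ n n₀ m hexp c₁ Φ₁ F₁ _hA fb hfb
    Ω iT _ _ _ iM _ ν _ T T' φ₀ Φ f₀ F hdat ω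
  have hu : B.u ∈ T₀ := (hexp.mem_T₀ B.u).2 hlev.u_level
  obtain ⟨hmem, -⟩ := hdat
  obtain ⟨-, -, hLA⟩ := hmem ω
  obtain ⟨-, -, hsph, harch⟩ := hLA
  obtain ⟨h305, hΦinv, hFinv⟩ := harch
  refine And.intro ?_ (And.intro ?_ (And.intro ?_ (And.intro ?_ (And.intro ?_ ?_))))
  · -- the partner at the bad places
    exact locHyp893_congr_down475 _ μc _ n m _ (Φ ω) fb _ (F ω)
      (fun v hv => swDn_bad475 B T₀ fb (f₀ ω) v hv)
      (hfb.hyp μc (Φ ω) (F ω) h305.arch_up h305.arch_down h305.arch)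
  · intro v hv hne w hw
    exact swUp_over_bad475 B T₀ n₀ (φ₀ ω) v hv hne w hw
  · exact swDn_u475 B T₀ fb (f₀ ω)
  · intro w hw
    exact swUp_over_u475 B T₀ n₀ (φ₀ ω) w hw
  · -- outside the level nothing changes
    intro v hvT hv0
    obtain ⟨A, Av, hAv, hAw, hbc, hsplit⟩ := hsph v hvT hv0
    refine ⟨A, Av, ?_, ?_, hbc, hsplit⟩
    · rw [swDn_out475 B T₀ hu fb (f₀ ω) v hv0]
      exact hAv
    · intro w hw
      rw [swUp_over_out475 B T₀ hu n₀ (φ₀ ω) v hv0 w hw]
      exact hAw w hw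
  · -- at infinity nothing changes
    exact And.intro (locHyp305_empty_congr475 _ μc n m (φ₀ ω) _ (Φ ω) (f₀ ω) _ (F ω) h305)
      (And.intro hΦinv hFinv)

end Fermat.Agent.LT.T7.H475

end
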